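import Mathlib.Analysis.Complex.Polynomial.Basic
import Mathlib.FieldTheory.Minpoly.IsIntegrallyClosed
import Mathlib.RingTheory.Polynomial.RationalRoot
import Mathlib.RingTheory.Polynomial.Resultant.Basic
import Mathlib.Topology.Algebra.Polynomial

/-!
# Fekete's theorem

The products of the distances inside finite subsets give decreasing diameters, and the roots of an
irreducible monic integral polynomial have a product of distances at least one.
-/

set_option autoImplicit false

noncomputable section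

namespace FA.Fekete

open Finset Polynomial

/-- The product of `|z - w|` over the ordered pairs of distinct points. -/
def pairProd (s : Finset ℂ) : ℝ := ∏ q ∈ s.offDiag, ‖q.1 - q.2‖

theorem pairProd_nonneg (s : Finset ℂ) : 0 ≤ pairProd s :=
  Finset.prod_nonneg fun _ _ => norm_nonneg _

theorem prod_pairProd_erase (s : Finset ℂ) :
    ∏ k ∈ s, pairProd (s.erase k) = pairProd s ^ (s.card - 2) := by
  classical
  rw [pairProd, ← Finset.prod_pow]
  simp only [pairProd]
  rw [Finset.prod_comm' (t' := s.offDiag) (s' := fun q => (s.erase q.1).erase q.2)]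
  · refine Finset.prod_congr rfl fun q hq => ?_
    obtain ⟨h1, h2, h3⟩ := Finset.mem_offDiag.1 hq
    rw [Finset.prod_const, Finset.card_erase_of_mem (Finset.mem_erase.2 ⟨h3.symm, h2⟩),
      Finset.card_erase_of_mem h1, Nat.sub_sub]
  · intro k q
    simp only [Finset.mem_offDiag, Finset.mem_erase]
    tauto

/-- **Fekete's lemma: the diameters decrease.** -/
theorem pairProd_le_of_le {S : Set ℂ} {δ : ℝ} (hδ : 0 ≤ δ) {m n : ℕ} (hm : 2 ≤ m)
    (hS : ∀ s : Finset ℂ, (↑s : Set ℂ) ⊆ S → s.card = m → pairProd s ≤ δ ^ (m * (m - 1)))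
    (hmn : m ≤ n) : ∀ s : Finset ℂ, (↑s : Set ℂ) ⊆ S → s.card = n →
      pairProd s ≤ δ ^ (n * (n - 1)) := by
  induction n, hmn using Nat.le_induction with
  | base => exact hS
  | succ n hmn ih =>
    intro s hs hcard
    have h : pairProd s ^ (n - 1) ≤ (δ ^ ((n + 1) * n)) ^ (n - 1) :=
      calc pairProd s ^ (n - 1) = ∏ k ∈ s, pairProd (s.erase k) := by
            rw [prod_pairProd_erase, hcard]; rfl
        _ ≤ ∏ _k ∈ s, δ ^ (n * (n - 1)) :=
            Finset.prod_le_prod (fun k _ => pairProd_nonneg _) fun k hk =>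
              ih _ (((Finset.coe_subset.2 (Finset.erase_subset k s))).trans hs)
                (by rw [Finset.card_erase_of_mem hk, hcard, Nat.add_sub_cancel])
        _ = (δ ^ ((n + 1) * n)) ^ (n - 1) := by
            rw [Finset.prod_const, hcard, ← pow_mul, ← pow_mul]
            congr 1
            ring
    rw [Nat.add_sub_cancel]
    exact (pow_le_pow_iff_left₀ (pairProd_nonneg _) (pow_nonneg hδ _) (by omega)).1 h

theorem one_le_pairProd {x : ℂ} (hx : IsIntegral ℤ x) :
    1 ≤ pairProd ((minpoly ℤ x).aroots ℂ).toFinset ∧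
      (minpoly ℤ x).natDegree = ((minpoly ℤ x).aroots ℂ).toFinset.card := by
  classical
  set P := minpoly ℤ x
  have hmon : P.Monic := minpoly.monic hx
  set f := P.map (algebraMap ℤ ℂ) with hf
  have hirr : Irreducible (P.map (algebraMap ℤ ℚ)) := by
    rw [← minpoly.isIntegrallyClosed_eq_field_fractions' ℚ hx]
    exact minpoly.irreducible hx.tower_top
  have hsep : f.Separable := by
    have h := hirr.separable.map (f := algebraMap ℚ ℂ)
    rwa [Polynomial.map_map, ← IsScalarTower.algebraMap_eq] at h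
  have hnodup : (P.aroots ℂ).Nodup := Polynomial.nodup_roots hsep
  have hsplit : f.Splits := IsAlgClosed.splits f
  have hdeg : f.natDegree = P.natDegree := hmon.natDegree_map _
  have hfm : f.Monic := hmon.map _
  have hcard : P.natDegree = (P.aroots ℂ).toFinset.card := by
    rw [Multiset.toFinset_card_of_nodup hnodup, ← hdeg]
    exact hsplit.natDegree_eq_card_roots
  refine ⟨?_, hcard⟩
  set s := (P.aroots ℂ).toFinset
  have hprod : f = ∏ r ∈ s, (X - C r) := by
    show f = ((P.aroots ℂ).toFinset.val.map fun r => X - C r).prod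
    rw [Multiset.toFinset_val, Multiset.dedup_eq_self.2 hnodup]
    exact hsplit.eq_prod_roots_of_monic hfm
  have hderiv : ∀ r ∈ s, f.derivative.eval r = ∏ t ∈ s.erase r, (r - t) := by
    intro r hr
    rw [hprod, ← Finset.mul_prod_erase s (fun r => X - C r) hr]
    simp [derivative_mul, eval_prod]
  have hres := resultant_eq_prod_eval f f.derivative (P.natDegree - 1)
    (f.natDegree_derivative_le.trans (by rw [hdeg])) hsplit
  rw [hfm.leadingCoeff, one_pow, one_mul, hdeg, hf, derivative_map, resultant_map_map] at hres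
  have hmap : (((P.aroots ℂ).map f.derivative.eval)).prod = ∏ r ∈ s, f.derivative.eval r := by
    show _ = ((P.aroots ℂ).toFinset.val.map _).prod
    rw [Multiset.toFinset_val, Multiset.dedup_eq_self.2 hnodup]
  rw [← derivative_map] at hres
  have hne : ∏ r ∈ s, f.derivative.eval r ≠ 0 := Finset.prod_ne_zero_iff.2 fun r hr => by
    rw [hderiv r hr]
    exact Finset.prod_ne_zero_iff.2 fun t ht => sub_ne_zero.2 (Finset.ne_of_mem_erase ht).symm
  have heq : ((P.resultant P.derivative P.natDegree (P.natDegree - 1) : ℤ) : ℂ) =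
      ∏ r ∈ s, f.derivative.eval r := hres.trans hmap
  have hN : ∏ r ∈ s, ‖f.derivative.eval r‖ = pairProd s := by
    rw [pairProd, Finset.prod_finset_product' s.offDiag s (fun r => s.erase r) (fun q => by
      simp only [Finset.mem_offDiag, Finset.mem_erase]; tauto)
      (f := fun r t => ‖r - t‖)]
    exact Finset.prod_congr rfl fun r hr => by rw [hderiv r hr, norm_prod]
  rw [← hN, ← norm_prod, ← heq, Complex.norm_intCast]
  exact_mod_cast Int.one_le_abs fun h => hne (by rw [← heq, h, Int.cast_zero])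

/-- Algebraic integers of bounded degree with bounded conjugates are finite in number. -/
theorem finite_of_bounded_degree (R : ℝ) (d : ℕ) :
    {x : ℂ | IsIntegral ℤ x ∧ (minpoly ℤ x).natDegree ≤ d ∧
      ∀ z ∈ (minpoly ℤ x).aroots ℂ, ‖z‖ ≤ R}.Finite := by
  classical
  set C : ℤ := ⌈max R 1 ^ d * d.choose (d / 2)⌉
  set T : Set (Fin (d + 1) → ℤ) := Set.pi Set.univ fun _ => Set.Icc (-C) C
  refine Set.Finite.subset ((Set.Finite.pi fun _ => Set.finite_Icc (-C) C).biUnion fun c _ =>
    (∑ i : Fin (d + 1), Polynomial.C (c i) * X ^ (i : ℕ)).rootSet_finite ℂ) ?_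
  rintro x ⟨hx, hd, hz⟩
  have hcoef : ∀ i : ℕ, |(minpoly ℤ x).coeff i| ≤ C := by
    intro i
    have h := Polynomial.coeff_bdd_of_roots_le (algebraMap ℤ ℂ) (minpoly.monic hx)
      (IsAlgClosed.splits _) hd hz i
    rw [coeff_map, algebraMap_int_eq, eq_intCast, Complex.norm_intCast, ← Int.cast_abs] at h
    exact Int.cast_le.1 (h.trans (Int.le_ceil _))
  refine Set.mem_biUnion (x := fun i : Fin (d + 1) => (minpoly ℤ x).coeff i)
    (fun i _ => abs_le.1 (hcoef i)) ?_
  have hP : ∑ i : Fin (d + 1), Polynomial.C ((minpoly ℤ x).coeff i) * X ^ (i : ℕ) =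
      minpoly ℤ x := by
    rw [Fin.sum_univ_eq_sum_range (fun i => Polynomial.C ((minpoly ℤ x).coeff i) * X ^ i)]
    exact ((minpoly ℤ x).as_sum_range_C_mul_X_pow' (Nat.lt_succ_of_le hd)).symm
  show x ∈ rootSet _ ℂ
  rw [hP, mem_rootSet']
  exact ⟨(minpoly.monic hx).map _ |>.ne_zero, minpoly.aeval ℤ x⟩

/-- **Fekete's theorem.** -/
theorem finite_of_diameter_lt_one {S : Set ℂ} {R : ℝ} (hR : ∀ z ∈ S, ‖z‖ ≤ R) {δ : ℝ}
    (hδ0 : 0 ≤ δ) (hδ : δ < 1) {m : ℕ} (hm : 2 ≤ m)
    (hS : ∀ s : Finset ℂ, (↑s : Set ℂ) ⊆ S → s.card = m → pairProd s ≤ δ ^ (m * (m - 1))) :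
    {x : ℂ | IsIntegral ℤ x ∧ ∀ z ∈ (minpoly ℤ x).aroots ℂ, z ∈ S}.Finite := by
  classical
  refine (finite_of_bounded_degree R m).subset fun x ⟨hx, hz⟩ =>
    ⟨hx, ?_, fun z hz' => hR z (hz z hz')⟩
  by_contra h
  push Not at h
  obtain ⟨h1, hcard⟩ := one_le_pairProd hx
  have h2 := pairProd_le_of_le hδ0 hm hS h.le ((minpoly ℤ x).aroots ℂ).toFinset
    (fun z hz' => hz z (Multiset.mem_toFinset.1 hz')) hcard.symm
  exact absurd (h1.trans h2) (not_le.2 (pow_lt_one₀ hδ0 hδ
    (Nat.mul_ne_zero (by omega) (by omega))))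

end FA.Fekete

end
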