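import Fermat.Agent.Fekete.Diameter
import Mathlib.LinearAlgebra.Vandermonde
import Mathlib.RingTheory.Polynomial.Chebyshev
import Mathlib.Analysis.SpecialFunctions.Trigonometric.Chebyshev.Basic
import Mathlib.Analysis.SpecificLimits.Normed

/-!
# Intervals and discs

Monic polynomials of every degree `k` bounded by `C rᵏ`, `r < 1`, bound the Vandermonde
determinants and so the diameters; the Chebyshev polynomials give the intervals of length below `4`.
-/

set_option autoImplicit false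

noncomputable section

namespace FA.Fekete

open Finset Polynomial
open scoped Nat

theorem pairProd_eq_det {n : ℕ} {v : Fin n → ℂ} (hv : Function.Injective v) :
    pairProd (univ.image v) = ‖(Matrix.vandermonde v).det‖ ^ 2 := by
  classical
  have hoff : (univ.image v).offDiag =
      ((univ : Finset (Fin n)).offDiag).image (Prod.map v v) := by
    ext ⟨a, b⟩
    simp only [mem_offDiag, mem_image, mem_univ, true_and, Prod.exists, Prod.map, Prod.mk.injEq]
    constructor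
    · rintro ⟨⟨i, rfl⟩, ⟨j, rfl⟩, hne⟩
      exact ⟨i, j, fun h => hne (h ▸ rfl), rfl, rfl⟩
    · rintro ⟨i, j, hne, rfl, rfl⟩
      exact ⟨⟨i, rfl⟩, ⟨j, rfl⟩, fun h => hne (hv h)⟩
  rw [pairProd, hoff, Finset.prod_image (hv.prodMap hv).injOn, Matrix.det_vandermonde, norm_prod]
  simp only [Prod.map_fst, Prod.map_snd]
  rw [Finset.prod_finset_product' _ univ (fun i => univ.erase i) (fun q => by
      simp only [mem_offDiag, mem_erase, mem_univ, true_and, and_true]; tauto)
      (f := fun i j => ‖v i - v j‖)]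
  simp only [norm_prod]
  have hsplit : ∀ i : Fin n, ∏ j ∈ univ.erase i, ‖v i - v j‖ =
      (∏ j ∈ Ioi i, ‖v i - v j‖) * ∏ j ∈ Iio i, ‖v i - v j‖ := fun i => by
    rw [← Finset.prod_union (Finset.disjoint_left.2 fun j h1 h2 => by
      rw [mem_Ioi] at h1; rw [mem_Iio] at h2; exact absurd h2 h1.not_gt)]
    refine Finset.prod_congr (Finset.ext fun j => ?_) fun _ _ => rfl
    simp only [mem_erase, mem_univ, and_true, mem_union, mem_Ioi, mem_Iio]
    rw [ne_iff_lt_or_gt, or_comm]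
  rw [Finset.prod_congr rfl fun i _ => hsplit i, Finset.prod_mul_distrib,
    Finset.prod_comm' (t' := univ) (s' := fun j => Ioi j)
      (f := fun i j => ‖v i - v j‖) (t := fun i : Fin n => Iio i) (h := fun i j => by simp), sq]
  congr 1
  refine Finset.prod_congr rfl fun i _ => Finset.prod_congr rfl fun j _ => ?_
  exact norm_sub_rev _ _

/-- **Small Chebyshev constants give finiteness.** -/
theorem finite_of_polynomials {S : Set ℂ} {C r : ℝ} (hC : 0 < C) (hr0 : 0 < r) (hr : r < 1)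
    (P : ℕ → ℂ[X]) (hdeg : ∀ k, (P k).natDegree = k) (hmon : ∀ k, (P k).Monic)
    (hP : ∀ k, ∀ z ∈ S, ‖(P k).eval z‖ ≤ C * r ^ k) :
    {x : ℂ | IsIntegral ℤ x ∧ ∀ z ∈ (minpoly ℤ x).aroots ℂ, z ∈ S}.Finite := by
  classical
  set δ := (1 + r) / 2 with hδdef
  have hδ0 : 0 < δ := by positivity
  have hq0 : 0 < r / δ := div_pos hr0 hδ0
  have hq1 : r / δ < 1 := (div_lt_one hδ0).2 (by rw [hδdef]; linarith)
  obtain ⟨N, hN⟩ := Filter.eventually_atTop.1
    ((tendsto_pow_const_mul_const_pow_of_abs_lt_one 2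
      (show |r / δ| < 1 by rwa [abs_of_pos hq0])).eventually_lt_const
        (show (0 : ℝ) < r / δ / C ^ 2 by positivity))
  set m := max N 2
  refine finite_of_diameter_lt_one (R := C * r + ‖(P 1).coeff 0‖) (fun z hz => ?_) hδ0.le
    (by rw [hδdef]; linarith) (le_max_right N 2) fun s hs hcard => ?_
  · have h := hP 1 z hz
    rw [(hmon 1).eq_X_add_C (hdeg 1), eval_add, eval_X, eval_C, pow_one] at h
    have h' := norm_add_le (z + (P 1).coeff 0) (-(P 1).coeff 0)
    rw [add_neg_cancel_right, norm_neg] at h'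
    linarith
  set v : Fin m → ℂ := fun i => (s.equivFinOfCardEq hcard).symm i
  have hv : Function.Injective v := Subtype.val_injective.comp (Equiv.injective _)
  have himg : univ.image v = s := Finset.ext fun z => by
    simp only [mem_image, mem_univ, true_and]
    refine ⟨fun ⟨i, hi⟩ => hi ▸ ((s.equivFinOfCardEq hcard).symm i).2, fun hz =>
      ⟨s.equivFinOfCardEq hcard ⟨z, hz⟩, by simp [v]⟩⟩
  have hdet : ‖(Matrix.vandermonde v).det‖ ≤ m ! * (C ^ m * r ^ ∑ j : Fin m, (j : ℕ)) := by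
    rw [Matrix.det_eval_matrixOfPolynomials_eq_det_vandermonde v (fun j => P j)
      (fun j => hdeg j) (fun j => hmon j), Matrix.det_apply]
    refine (norm_sum_le _ _).trans ((Finset.sum_le_card_nsmul _ _
      (C ^ m * r ^ ∑ j : Fin m, (j : ℕ)) fun σ _ => ?_).trans (le_of_eq ?_))
    · rw [Units.smul_def, zsmul_eq_mul, norm_mul, Complex.norm_intCast, norm_prod]
      rw [show |((Equiv.Perm.sign σ : ℤ) : ℝ)| = 1 by
        rcases Int.units_eq_one_or (Equiv.Perm.sign σ) with h | h <;> rw [h] <;> norm_num, one_mul]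
      calc ∏ i, ‖Matrix.of (fun i j : Fin m => (P j).eval (v i)) (σ i) i‖
          ≤ ∏ i : Fin m, C * r ^ (i : ℕ) := Finset.prod_le_prod (fun i _ => norm_nonneg _)
            fun i _ => hP i _ (hs ((s.equivFinOfCardEq hcard).symm (σ i)).2)
        _ = C ^ m * r ^ ∑ j : Fin m, (j : ℕ) := by
            rw [Finset.prod_mul_distrib, Finset.prod_const, card_univ, Fintype.card_fin,
              Finset.prod_pow_eq_pow_sum]
    · rw [nsmul_eq_mul, card_univ, Fintype.card_perm, Fintype.card_fin]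
  have hsum : (∑ j : Fin m, (j : ℕ)) * 2 = m * (m - 1) := by
    rw [Fin.sum_univ_eq_sum_range (fun i => i), Finset.sum_range_id_mul_two]
  rw [← himg, pairProd_eq_det hv]
  refine (pow_le_pow_left₀ (norm_nonneg _) hdet 2).trans ?_
  have hfac : ((m ! : ℕ) : ℝ) ≤ (m : ℝ) ^ m := by exact_mod_cast Nat.factorial_le_pow m
  calc ((m ! : ℝ) * (C ^ m * r ^ ∑ j : Fin m, (j : ℕ))) ^ 2
      ≤ ((m : ℝ) ^ m * (C ^ m * r ^ ∑ j : Fin m, (j : ℕ))) ^ 2 := by gcongr
    _ = ((m : ℝ) ^ 2 * C ^ 2) ^ m * r ^ ((m - 1) * m) := by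
        rw [mul_comm (m - 1) m, ← hsum, pow_mul]; ring
    _ = ((m : ℝ) ^ 2 * C ^ 2 * (r / δ) ^ (m - 1)) ^ m * δ ^ ((m - 1) * m) := by
        rw [div_pow, mul_div_assoc', div_pow, ← pow_mul, mul_pow _ (r ^ (m - 1)), ← pow_mul]
        field_simp
    _ ≤ 1 ^ m * δ ^ ((m - 1) * m) := by
        refine mul_le_mul_of_nonneg_right (pow_le_pow_left₀ (by positivity) ?_ m) (by positivity)
        have h := hN m (le_max_left N 2)
        rw [lt_div_iff₀ (pow_pos hC 2)] at h
        obtain ⟨j, hj⟩ : ∃ j, m = j + 1 := ⟨m - 1, by omega⟩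
        rw [hj] at h ⊢
        rw [Nat.add_sub_cancel]
        rw [pow_succ (r / δ)] at h
        nlinarith
    _ = δ ^ (m * (m - 1)) := by rw [one_pow, one_mul, mul_comm]

/-- Discs of radius below one. -/
theorem finite_closedBall (c : ℂ) {r : ℝ} (hr : r < 1) :
    {x : ℂ | IsIntegral ℤ x ∧
      ∀ z ∈ (minpoly ℤ x).aroots ℂ, z ∈ Metric.closedBall c r}.Finite := by
  refine finite_of_polynomials (r := (max r 0 + 1) / 2) one_pos (by positivity)
    (by have := max_lt hr one_pos; linarith) (fun k => (X - Polynomial.C c) ^ k)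
    (fun k => by simp) (fun k => (monic_X_sub_C c).pow k) fun k z hz => ?_
  rw [Metric.mem_closedBall, dist_eq_norm] at hz
  simp only [eval_pow, eval_sub, eval_X, eval_C, norm_pow, one_mul]
  refine pow_le_pow_left₀ (norm_nonneg _) (hz.trans ?_) k
  have h1 := le_max_left r 0
  have h2 := max_lt hr one_pos
  linarith

theorem dickson_monic {R : Type*} [CommRing R] [Nontrivial R] : ∀ k : ℕ,
    (Chebyshev.C R ((k + 1 : ℕ) : ℤ)).Monic ∧
      (Chebyshev.C R ((k + 1 : ℕ) : ℤ)).natDegree = k + 1 := by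
  intro k
  induction k using Nat.twoStepInduction with
  | zero => simp
  | one =>
    norm_num [Chebyshev.C_two]
    exact ⟨by monicity!, by compute_degree!⟩
  | more k h1 h2 =>
    have h : Chebyshev.C R ((k + 2 + 1 : ℕ) : ℤ) =
        X * Chebyshev.C R ((k + 1 + 1 : ℕ) : ℤ) - Chebyshev.C R ((k + 1 : ℕ) : ℤ) := by
      rw [show ((k + 2 + 1 : ℕ) : ℤ) = ((k + 1 : ℕ) : ℤ) + 2 by push_cast; ring,
        Chebyshev.C_add_two, show ((k + 1 : ℕ) : ℤ) + 1 = ((k + 1 + 1 : ℕ) : ℤ) by push_cast; ring]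
    have hm : (X * Chebyshev.C R ((k + 1 + 1 : ℕ) : ℤ)).Monic := monic_X.mul h2.1
    have hd : (X * Chebyshev.C R ((k + 1 + 1 : ℕ) : ℤ)).natDegree = k + 2 + 1 := by
      rw [monic_X.natDegree_mul h2.1, natDegree_X, h2.2]; ring
    have hlt : (Chebyshev.C R ((k + 1 : ℕ) : ℤ)).degree <
        (X * Chebyshev.C R ((k + 1 + 1 : ℕ) : ℤ)).degree :=
      degree_lt_degree (by rw [hd, h1.2]; omega)
    rw [h]
    exact ⟨hm.sub_of_left hlt, (natDegree_sub_eq_left_of_natDegree_lt
      (by rw [hd, h1.2]; omega)).trans hd⟩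

theorem dickson_eval_add {K : Type*} [Field K] {t : K} (ht : t ≠ 0) : ∀ k : ℕ,
    (Chebyshev.C K (k : ℤ)).eval (t + t⁻¹) = t ^ k + t⁻¹ ^ k := by
  intro k
  induction k using Nat.twoStepInduction with
  | zero => simp; norm_num
  | one => simp
  | more k h1 h2 =>
    rw [show ((k + 2 : ℕ) : ℤ) = (k : ℤ) + 2 by push_cast; ring, Chebyshev.C_add_two, eval_sub,
      eval_mul, eval_X, show (k : ℤ) + 1 = ((k + 1 : ℕ) : ℤ) by push_cast; ring, h1, h2]
    have : t * t⁻¹ = 1 := mul_inv_cancel₀ ht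
    linear_combination (t ^ k + t⁻¹ ^ k) * this

theorem norm_dickson_le (θ : ℝ) (k : ℕ) :
    ‖(Chebyshev.C ℂ (k : ℤ)).eval ((2 * Real.cos θ : ℝ) : ℂ)‖ ≤ 2 := by
  rw [show ((2 * Real.cos θ : ℝ) : ℂ) =
      Complex.exp (θ * Complex.I) + (Complex.exp (θ * Complex.I))⁻¹ by
    rw [← Complex.exp_neg, ← neg_mul]; push_cast; rw [← Complex.two_cos],
    dickson_eval_add (Complex.exp_ne_zero _)]
  refine (norm_add_le _ _).trans ?_
  simp only [norm_pow, norm_inv, Complex.norm_exp_ofReal_mul_I, inv_one, one_pow]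
  norm_num

/-- **Intervals of length below four.** -/
theorem finite_interval {a b : ℝ} (hab : b - a < 4) :
    {x : ℂ | IsIntegral ℤ x ∧ ∀ z ∈ (minpoly ℤ x).aroots ℂ,
      z.im = 0 ∧ a ≤ z.re ∧ z.re ≤ b}.Finite := by
  classical
  set r : ℝ := (max ((b - a) / 4) 0 + 1) / 2 with hr
  have hr0 : 0 < r := by positivity
  have hr1 : r < 1 := by
    have := max_lt (show (b - a) / 4 < 1 by linarith) one_pos
    rw [hr]; linarith
  set c : ℝ := (a + b) / 2 with hc
  set Q : ℂ[X] := Polynomial.C ((r : ℂ)⁻¹) * (X - Polynomial.C (c : ℂ)) with hQ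
  have hrC : (r : ℂ) ≠ 0 := by exact_mod_cast hr0.ne'
  have hQd : Q.natDegree = 1 := by
    rw [hQ, natDegree_C_mul (inv_ne_zero hrC), natDegree_X_sub_C]
  have hQl : Q.leadingCoeff = (r : ℂ)⁻¹ := by
    rw [hQ, leadingCoeff_mul, leadingCoeff_C, leadingCoeff_X_sub_C, mul_one]
  let P : ℕ → ℂ[X] := fun k => if k = 0 then 1
    else Polynomial.C ((r : ℂ) ^ k) * (Chebyshev.C ℂ (k : ℤ)).comp Q
  have hPk : ∀ k, (P (k + 1)).Monic ∧ (P (k + 1)).natDegree = k + 1 := fun k => by
    obtain ⟨hm, hd⟩ := dickson_monic (R := ℂ) k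
    simp only [P, Nat.add_one_ne_zero, if_false]
    refine ⟨?_, ?_⟩
    · rw [Monic, leadingCoeff_mul, leadingCoeff_C, leadingCoeff_comp (by omega), hm.leadingCoeff,
        hd, hQl, one_mul, inv_pow, mul_inv_cancel₀ (pow_ne_zero _ hrC)]
    · rw [natDegree_C_mul (pow_ne_zero _ hrC), natDegree_comp, hd, hQd, mul_one]
  refine finite_of_polynomials two_pos hr0 hr1 P
    (fun k => by cases k with
      | zero => simp [P]
      | succ k => exact (hPk k).2)
    (fun k => by cases k with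
      | zero => simp [P]
      | succ k => exact (hPk k).1) fun k z ⟨hz1, hz2, hz3⟩ => ?_
  rcases Nat.eq_zero_or_pos k with rfl | hk
  · simp [P]
  have hz : z = (z.re : ℂ) := Complex.ext rfl (by simp [hz1])
  obtain ⟨θ, hθ⟩ : ∃ θ, 2 * Real.cos θ = (z.re - c) / r := by
    have h1 := le_max_left ((b - a) / 4) 0
    refine ⟨Real.arccos ((z.re - c) / r / 2), ?_⟩
    rw [Real.cos_arccos (by rw [div_div, le_div_iff₀ (by positivity)]; linarith)
      (by rw [div_div, div_le_iff₀ (by positivity)]; linarith)]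
    ring
  simp only [P, if_neg hk.ne', eval_mul, eval_C, eval_comp]
  rw [norm_mul, norm_pow, Complex.norm_real, Real.norm_of_nonneg hr0.le, mul_comm]
  refine mul_le_mul_of_nonneg_right ?_ (pow_nonneg hr0.le k)
  rw [show Q.eval z = ((2 * Real.cos θ : ℝ) : ℂ) by
    rw [hθ, hQ, eval_mul, eval_C, eval_sub, eval_X, eval_C]
    push_cast
    rw [← hz]
    ring]
  exact norm_dickson_le θ k

/-- The conjugates of `2 cos (2π/n) + m + 2`. -/
theorem cos_mem (m : ℤ) {n : ℕ} (hn : n ≠ 0) :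
    ((m + 2 + 2 * Real.cos (2 * Real.pi / n) : ℝ) : ℂ) ∈
      {x : ℂ | IsIntegral ℤ x ∧ ∀ z ∈ (minpoly ℤ x).aroots ℂ,
        z.im = 0 ∧ (m : ℝ) ≤ z.re ∧ z.re ≤ (m + 4 : ℝ)} := by
  obtain ⟨k, rfl⟩ : ∃ k, n = k + 1 := ⟨n - 1, by omega⟩
  set Q : ℤ[X] := (Chebyshev.C ℤ ((k + 1 : ℕ) : ℤ)).comp (X - Polynomial.C (m + 2)) -
    Polynomial.C 2 with hQdef
  have hQm : Q.Monic := by
    obtain ⟨hm, hd⟩ := dickson_monic (R := ℤ) k
    refine (hm.comp (monic_X_sub_C _)
      (by rw [natDegree_X_sub_C]; exact one_ne_zero)).sub_of_left (degree_C_le.trans_lt ?_)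
    rw [← natDegree_pos_iff_degree_pos, natDegree_comp, hd, natDegree_X_sub_C]
    omega
  have hQev : ∀ w : ℂ, aeval w Q =
      (Chebyshev.C ℂ ((k + 1 : ℕ) : ℤ)).eval (w - ((m : ℂ) + 2)) - 2 := fun w => by
    simp [hQdef, aeval_comp, Chebyshev.aeval_C, map_ofNat]
  set x : ℂ := ((m + 2 + 2 * Real.cos (2 * Real.pi / (k + 1 : ℕ)) : ℝ) : ℂ) with hx
  set t := Complex.exp ((2 * Real.pi / (k + 1 : ℕ) : ℝ) * Complex.I) with ht
  have htk : t ^ (k + 1) = 1 := by
    rw [ht, ← Complex.exp_nat_mul, Complex.exp_eq_one_iff]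
    exact ⟨1, by push_cast; field_simp⟩
  have hroot : aeval x Q = 0 := by
    rw [hQev, show x - ((m : ℂ) + 2) = t + t⁻¹ by
      rw [ht, ← Complex.exp_neg, ← neg_mul, hx]; push_cast; rw [← Complex.two_cos]; ring,
      dickson_eval_add (Complex.exp_ne_zero _), inv_pow, htk]
    norm_num
  have hxi : IsIntegral ℤ x := ⟨Q, hQm, hroot⟩
  refine ⟨hxi, fun z hz => ?_⟩
  have hzQ : aeval z Q = 0 := by
    obtain ⟨q, hq⟩ := minpoly.isIntegrallyClosed_dvd hxi hroot
    rw [hq, map_mul, (mem_aroots.1 hz).2, zero_mul]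
  obtain ⟨s, hs⟩ := IsAlgClosed.exists_root (k := ℂ)
    (X ^ 2 - Polynomial.C (z - ((m : ℂ) + 2)) * X + 1 : ℂ[X]) (by
      have : (X ^ 2 - Polynomial.C (z - ((m : ℂ) + 2)) * X + 1 : ℂ[X]).degree = 2 := by
        compute_degree!
      rw [this]; norm_num)
  simp only [IsRoot, eval_add, eval_sub, eval_pow, eval_X, eval_mul, eval_C, eval_one] at hs
  have hs0 : s ≠ 0 := fun h => by simp [h] at hs
  have hw : z - ((m : ℂ) + 2) = s + s⁻¹ := by
    field_simp
    linear_combination -hs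
  rw [hQev, hw, dickson_eval_add hs0, inv_pow] at hzQ
  have hsk : s ^ (k + 1) = 1 := by
    have h0 : s ^ (k + 1) ≠ 0 := pow_ne_zero _ hs0
    field_simp at hzQ
    exact sub_eq_zero.1 (sq_eq_zero_iff.1 (by linear_combination hzQ))
  have hnorm : ‖s‖ = 1 := Complex.norm_eq_one_of_pow_eq_one hsk (Nat.add_one_ne_zero k)
  have hre : z = ((m + 2 + 2 * s.re : ℝ) : ℂ) := by
    rw [Complex.inv_eq_conj hnorm, Complex.add_conj] at hw
    push_cast at hw ⊢
    linear_combination hw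
  have habs := Complex.abs_re_le_norm s
  rw [hnorm, abs_le] at habs
  rw [hre, Complex.ofReal_im, Complex.ofReal_re]
  exact ⟨rfl, by linarith [habs.1], by linarith [habs.2]⟩

end FA.Fekete

end
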